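import Mathlib

/-!
# Abstract part of the Galois reduction for `ExtVanishingCts`

A group `G` acts `ZMod p`-linearly on `V` (of order `p ^ 2`), trivially on a line `C`, and on
`V / C` through a function `χ : G → ZMod p`.  Then

* `χ` is automatically multiplicative (`chi_mul`, `chi_one`);
* if every `σ` with `χ σ = 1` acts trivially on `V`, then `C` has a `G`-stable complement
  (`exists_stable_compl`);
* the elements with `χ σ = 1` form a subgroup `G1` and `σ ↦ σ • x₀ - x₀` is a homomorphism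
  `G1 → C` whose kernel is the kernel of the action, and which is `χ⁻¹`-equivariant for
  conjugation.
-/

set_option autoImplicit false

namespace Fermat.Agent.CFT.Red

section

variable {p : ℕ} [Fact p.Prime] {G : Type*} [Group G] {V : Type*} [AddCommGroup V]
  [Module (ZMod p) V] [DistribMulAction G V] [SMulCommClass G (ZMod p) V]

/-- If `a • x ∈ C` and `x ∉ C` then `a = 0`. -/
theorem red_eq_zero_of_smul_mem (C : Submodule (ZMod p) V) {a : ZMod p} {x : V}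
    (hx : x ∉ C) (h : a • x ∈ C) : a = 0 := by
  by_contra ha
  apply hx
  have h2 := C.smul_mem a⁻¹ h
  rwa [smul_smul, inv_mul_cancel₀ ha, one_smul] at h2

/-- A submodule of cardinality `p` in a module of cardinality `p ^ 2` is proper. -/
theorem red_exists_not_mem (C : Submodule (ZMod p) V) (hC : Nat.card C = p)
    (hV : Nat.card V = p ^ 2) : ∃ x : V, x ∉ C := by
  by_contra h
  push Not at h
  have h1 : Nat.card C = Nat.card V :=
    Nat.card_congr ⟨fun x => x.1, fun x => ⟨x, h x⟩, fun _ => rfl, fun _ => rfl⟩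
  rw [hC, hV] at h1
  have hp1 := (Fact.out : p.Prime).one_lt
  nlinarith [h1]

variable (C : Submodule (ZMod p) V) (χ : G → ZMod p)

/-- `χ` is multiplicative. -/
theorem red_chi_mul (hquot : ∀ σ : G, ∀ x : V, σ • x - χ σ • x ∈ C) {x₀ : V} (hx₀ : x₀ ∉ C)
    (hstab : ∀ σ : G, ∀ x ∈ C, σ • x ∈ C)
    (σ τ : G) : χ (σ * τ) = χ σ * χ τ := by
  have h1 := hquot (σ * τ) x₀
  have h2 := hquot τ x₀
  have h3 := hquot σ x₀
  -- σ • (τ • x₀ - χ τ • x₀) ∈ C
  have h4 := hstab σ _ h2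
  rw [smul_sub, smul_comm σ (χ τ) x₀] at h4
  have h5 := C.smul_mem (χ τ) h3
  rw [smul_sub, smul_smul] at h5
  have h6 : (χ (σ * τ) - χ σ * χ τ) • x₀ ∈ C := by
    have h7 := C.sub_mem (C.add_mem h4 h5) h1
    have h8 : σ • τ • x₀ - χ τ • σ • x₀ + (χ τ • σ • x₀ - (χ τ * χ σ) • x₀) -
        ((σ * τ) • x₀ - χ (σ * τ) • x₀) = (χ (σ * τ) - χ σ * χ τ) • x₀ := by
      rw [mul_smul σ τ x₀, sub_smul, mul_comm (χ τ) (χ σ)]
      abel
    rwa [h8] at h7
  have := red_eq_zero_of_smul_mem C hx₀ h6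
  exact sub_eq_zero.mp this

/-- `χ 1 = 1`. -/
theorem red_chi_one (hquot : ∀ σ : G, ∀ x : V, σ • x - χ σ • x ∈ C) {x₀ : V} (hx₀ : x₀ ∉ C) :
    χ 1 = 1 := by
  have h1 := hquot 1 x₀
  rw [one_smul] at h1
  have h2 : (1 - χ 1) • x₀ ∈ C := by rwa [sub_smul, one_smul]
  have := red_eq_zero_of_smul_mem C hx₀ h2
  exact (sub_eq_zero.mp this).symm

/-- An element acting trivially on `V` has `χ = 1`. -/
theorem red_chi_eq_one_of_trivial (hquot : ∀ σ : G, ∀ x : V, σ • x - χ σ • x ∈ C) {x₀ : V}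
    (hx₀ : x₀ ∉ C) {σ : G} (hσ : ∀ v : V, σ • v = v) : χ σ = 1 := by
  have h1 := hquot σ x₀
  rw [hσ] at h1
  have h2 : (1 - χ σ) • x₀ ∈ C := by rwa [sub_smul, one_smul]
  have := red_eq_zero_of_smul_mem C hx₀ h2
  exact (sub_eq_zero.mp this).symm

/-- Every vector is `a • x₀ + c` with `c ∈ C`. -/
theorem red_exists_decomp (hC : Nat.card C = p) (hV : Nat.card V = p ^ 2) {x₀ : V}
    (hx₀ : x₀ ∉ C) (v : V) : ∃ (a : ZMod p) (c : V), c ∈ C ∧ v = a • x₀ + c := by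
  classical
  have hp := (Fact.out : p.Prime)
  have hVfin : Finite V := Nat.finite_of_card_ne_zero (by rw [hV]; exact pow_ne_zero 2 hp.ne_zero)
  -- the map (a, c) ↦ a • x₀ + c is injective from ZMod p × C to V, hence bijective
  let f : ZMod p × C → V := fun ac => ac.1 • x₀ + (ac.2 : V)
  have hf : Function.Injective f := by
    rintro ⟨a, c⟩ ⟨a', c'⟩ h
    have h1 : (a - a') • x₀ = (c' : V) - c := by
      have h0 : a • x₀ + (c : V) = a' • x₀ + (c' : V) := h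
      rw [sub_smul]
      rw [← sub_eq_zero] at h0 ⊢
      rw [← h0]
      abel
    have h2 : (a - a') • x₀ ∈ C := by
      rw [h1]
      exact C.sub_mem c'.2 c.2
    have h3 := sub_eq_zero.mp (red_eq_zero_of_smul_mem C hx₀ h2)
    subst h3
    rw [sub_self, zero_smul] at h1
    have h4 : (c' : V) = c := sub_eq_zero.mp h1.symm
    rw [Prod.mk.injEq]
    exact ⟨rfl, (Subtype.ext h4).symm⟩
  have hcard : Nat.card (ZMod p × C) = Nat.card V := by
    rw [Nat.card_prod, hC, Nat.card_zmod, hV, sq]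
  have hbij : Function.Bijective f := by
    have : Finite (ZMod p × C) := Nat.finite_of_card_ne_zero (by
      rw [hcard, hV]; exact pow_ne_zero 2 hp.ne_zero)
    exact (Nat.bijective_iff_injective_and_card f).mpr ⟨hf, hcard⟩
  obtain ⟨⟨a, c⟩, hac⟩ := hbij.2 v
  exact ⟨a, c, c.2, hac.symm⟩

/-- **Maschke-type splitting.** If every `σ` with `χ σ = 1` acts trivially on `V`, then `C` has
a `G`-stable complement. -/
theorem red_exists_stable_compl (hfix : ∀ σ : G, ∀ x ∈ C, σ • x = x)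
    (hquot : ∀ σ : G, ∀ x : V, σ • x - χ σ • x ∈ C)
    (hC : Nat.card C = p) (hV : Nat.card V = p ^ 2)
    (htriv : ∀ σ : G, χ σ = 1 → ∀ v : V, σ • v = v) :
    ∃ C' : Submodule (ZMod p) V, (∀ σ : G, ∀ x ∈ C', σ • x ∈ C') ∧ IsCompl C C' := by
  obtain ⟨x₀, hx₀⟩ := red_exists_not_mem C hC hV
  have hstab : ∀ σ : G, ∀ x ∈ C, σ • x ∈ C := fun σ x hx => by rw [hfix σ x hx]; exact hx
  have hmul := red_chi_mul C χ hquot hx₀ hstab
  have hone := red_chi_one C χ hquot hx₀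
  by_cases hall : ∀ σ : G, χ σ = 1
  · -- everything acts trivially; take the line spanned by x₀
    refine ⟨Submodule.span (ZMod p) {x₀}, fun σ x hx => ?_, ?_⟩
    · rw [htriv σ (hall σ) x]; exact hx
    · refine IsCompl.of_eq ?_ ?_
      · rw [Submodule.eq_bot_iff]
        rintro x ⟨hxC, hx⟩
        obtain ⟨a, rfl⟩ := Submodule.mem_span_singleton.mp hx
        have := red_eq_zero_of_smul_mem C hx₀ hxC
        rw [this, zero_smul]
      · rw [Submodule.eq_top_iff']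
        intro v
        obtain ⟨a, c, hc, rfl⟩ := red_exists_decomp C hC hV hx₀ v
        rw [add_comm]
        exact Submodule.add_mem_sup hc (Submodule.smul_mem _ _ (Submodule.mem_span_singleton_self x₀))
  · push Not at hall
    obtain ⟨σ₀, hσ₀⟩ := hall
    -- commutation of the operators
    have hcomm : ∀ σ : G, ∀ v : V, σ • σ₀ • v = σ₀ • σ • v := by
      intro σ v
      have h1 : χ (σ⁻¹ * σ₀⁻¹ * σ * σ₀) = 1 := by
        have hinv : ∀ τ : G, χ τ⁻¹ * χ τ = 1 := fun τ => by rw [← hmul, inv_mul_cancel, hone]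
        rw [hmul, hmul, hmul]
        calc χ σ⁻¹ * χ σ₀⁻¹ * χ σ * χ σ₀ = (χ σ⁻¹ * χ σ) * (χ σ₀⁻¹ * χ σ₀) := by ring
          _ = 1 := by rw [hinv, hinv, one_mul]
      have h2 := htriv _ h1 v
      have h3 : σ₀ • σ • (σ⁻¹ * σ₀⁻¹ * σ * σ₀) • v = σ • σ₀ • v := by
        rw [← mul_smul, ← mul_smul, ← mul_smul]
        congr 1
        group
      rw [← h3, h2]
    -- the eigenspace
    let C' : Submodule (ZMod p) V :=
      { carrier := {x | σ₀ • x = χ σ₀ • x}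
        add_mem' := by
          intro a b ha hb
          show σ₀ • (a + b) = χ σ₀ • (a + b)
          rw [smul_add, smul_add, show σ₀ • a = χ σ₀ • a from ha, show σ₀ • b = χ σ₀ • b from hb]
        zero_mem' := by
          show σ₀ • (0 : V) = χ σ₀ • (0 : V)
          rw [smul_zero, smul_zero]
        smul_mem' := by
          intro c x hx
          show σ₀ • c • x = χ σ₀ • c • x
          rw [smul_comm σ₀ c x, show σ₀ • x = χ σ₀ • x from hx, smul_comm] }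
    have hC'mem : ∀ x : V, x ∈ C' ↔ σ₀ • x = χ σ₀ • x := fun x => Iff.rfl
    have hne : χ σ₀ - 1 ≠ 0 := sub_ne_zero.mpr hσ₀
    refine ⟨C', fun σ x hx => ?_, IsCompl.of_eq ?_ ?_⟩
    · rw [hC'mem] at hx ⊢
      rw [← hcomm, hx, smul_comm]
    · rw [Submodule.eq_bot_iff]
      rintro x ⟨hxC, hx⟩
      rw [SetLike.mem_coe, hC'mem, hfix σ₀ x hxC] at hx
      have h1 : (χ σ₀ - 1) • x = 0 := by rw [sub_smul, one_smul, ← hx, sub_self]
      rcases smul_eq_zero.mp h1 with h | h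
      · exact absurd h hne
      · exact h
    · rw [Submodule.eq_top_iff']
      intro x
      -- c := σ₀ x - χ σ₀ x ∈ C,  y := x + t c with t = (χ σ₀ - 1)⁻¹
      set c := σ₀ • x - χ σ₀ • x with hc
      have hcC : c ∈ C := hquot σ₀ x
      set t := (χ σ₀ - 1)⁻¹ with ht
      have hy : x + t • c ∈ C' := by
        rw [hC'mem, smul_add, smul_comm σ₀ t c, hfix σ₀ c hcC, smul_add]
        have h1 : σ₀ • x = c + χ σ₀ • x := by rw [hc]; abel
        rw [h1]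
        have h2 : c = (χ σ₀ - 1) • t • c := by
          rw [smul_smul, ht, mul_inv_cancel₀ hne, one_smul]
        have h3 : χ σ₀ • t • c = t • c + (χ σ₀ - 1) • t • c := by
          rw [sub_smul, one_smul]; abel
        rw [h3, ← h2]
        abel
      have hx : x = -(t • c) + (x + t • c) := by abel
      rw [hx]
      exact Submodule.add_mem_sup (C.neg_mem (C.smul_mem t hcC)) hy

/-- `χ σ⁻¹ = (χ σ)⁻¹`. -/
theorem red_chi_inv (hquot : ∀ σ : G, ∀ x : V, σ • x - χ σ • x ∈ C) {x₀ : V} (hx₀ : x₀ ∉ C)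
    (hstab : ∀ σ : G, ∀ x ∈ C, σ • x ∈ C) (σ : G) : χ σ⁻¹ = (χ σ)⁻¹ := by
  have h1 : χ σ⁻¹ * χ σ = 1 := by
    rw [← red_chi_mul C χ hquot hx₀ hstab, inv_mul_cancel, red_chi_one C χ hquot hx₀]
  exact eq_inv_of_mul_eq_one_left h1

/-- `χ σ ≠ 0`. -/
theorem red_chi_ne_zero (hquot : ∀ σ : G, ∀ x : V, σ • x - χ σ • x ∈ C) {x₀ : V} (hx₀ : x₀ ∉ C)
    (hstab : ∀ σ : G, ∀ x ∈ C, σ • x ∈ C) (σ : G) : χ σ ≠ 0 := by
  intro h
  have h1 : χ σ⁻¹ * χ σ = 1 := by
    rw [← red_chi_mul C χ hquot hx₀ hstab, inv_mul_cancel, red_chi_one C χ hquot hx₀]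
  rw [h, mul_zero] at h1
  exact zero_ne_one h1

/-- If `χ σ = 1` then `σ` moves every vector by an element of `C`. -/
theorem red_smul_sub_mem (hquot : ∀ σ : G, ∀ x : V, σ • x - χ σ • x ∈ C) {σ : G} (hσ : χ σ = 1)
    (x : V) : σ • x - x ∈ C := by
  have h := hquot σ x
  rwa [hσ, one_smul] at h

/-- Additivity of `σ ↦ σ • x - x` on `{χ = 1}`. -/
theorem red_b_mul (hfix : ∀ σ : G, ∀ x ∈ C, σ • x = x)
    (hquot : ∀ σ : G, ∀ x : V, σ • x - χ σ • x ∈ C) {σ τ : G} (hτ : χ τ = 1) (x : V) :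
    (σ * τ) • x - x = (σ • x - x) + (τ • x - x) := by
  have h1 := hfix σ _ (red_smul_sub_mem C χ hquot hτ x)
  rw [smul_sub] at h1
  rw [mul_smul]
  have h2 : σ • τ • x = τ • x - x + σ • x := by rw [← h1]; abel
  rw [h2]
  abel

/-- An element fixing `x₀ ∉ C` (and `C` pointwise) acts trivially. -/
theorem red_trivial_of_fix (hfix : ∀ σ : G, ∀ x ∈ C, σ • x = x) (hC : Nat.card C = p)
    (hV : Nat.card V = p ^ 2) {x₀ : V} (hx₀ : x₀ ∉ C) {σ : G} (h : σ • x₀ = x₀) (v : V) :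
    σ • v = v := by
  obtain ⟨a, c, hc, rfl⟩ := red_exists_decomp C hC hV hx₀ v
  rw [smul_add, smul_comm, h, hfix σ c hc]

/-- Conjugation rule: `(τ σ τ⁻¹) • x₀ - x₀ = (χ τ)⁻¹ • (σ • x₀ - x₀)` when `χ σ = 1`. -/
theorem red_b_conj (hfix : ∀ σ : G, ∀ x ∈ C, σ • x = x)
    (hquot : ∀ σ : G, ∀ x : V, σ • x - χ σ • x ∈ C) {x₀ : V} (hx₀ : x₀ ∉ C)
    (τ : G) {σ : G} (hσ : χ σ = 1) :
    (τ * σ * τ⁻¹) • x₀ - x₀ = (χ τ)⁻¹ • (σ • x₀ - x₀) := by
  have hstab : ∀ σ : G, ∀ x ∈ C, σ • x ∈ C := fun σ x hx => by rw [hfix σ x hx]; exact hx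
  -- c := τ⁻¹ x₀ - χ τ⁻¹ x₀ ∈ C
  set c := τ⁻¹ • x₀ - χ τ⁻¹ • x₀ with hc
  have hcC : c ∈ C := hquot τ⁻¹ x₀
  have h1 : τ⁻¹ • x₀ = χ τ⁻¹ • x₀ + c := by rw [hc]; abel
  have h2 : σ • τ⁻¹ • x₀ = χ τ⁻¹ • σ • x₀ + c := by
    rw [h1, smul_add, smul_comm, hfix σ c hcC]
  have h3 : σ • τ⁻¹ • x₀ - τ⁻¹ • x₀ = χ τ⁻¹ • (σ • x₀ - x₀) := by
    rw [h2, h1, smul_sub]; abel
  have h4 : χ τ⁻¹ • (σ • x₀ - x₀) ∈ C := C.smul_mem _ (red_smul_sub_mem C χ hquot hσ x₀)
  have h5 := hfix τ _ h4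
  rw [← h3, smul_sub, smul_inv_smul] at h5
  rw [mul_smul, mul_smul, h5, h3, red_chi_inv C χ hquot hx₀ hstab]

/-- If `C` has no stable complement then some `σ` with `χ σ = 1` moves `x₀`. -/
theorem red_exists_nontrivial (hfix : ∀ σ : G, ∀ x ∈ C, σ • x = x)
    (hquot : ∀ σ : G, ∀ x : V, σ • x - χ σ • x ∈ C)
    (hC : Nat.card C = p) (hV : Nat.card V = p ^ 2)
    (hns : ¬ ∃ C' : Submodule (ZMod p) V, (∀ σ : G, ∀ x ∈ C', σ • x ∈ C') ∧ IsCompl C C')
    {x₀ : V} (hx₀ : x₀ ∉ C) : ∃ σ : G, χ σ = 1 ∧ σ • x₀ ≠ x₀ := by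
  by_contra hcon
  push Not at hcon
  exact hns (red_exists_stable_compl C χ hfix hquot hC hV
    (fun σ hσ v => red_trivial_of_fix C hfix hC hV hx₀ (hcon σ hσ) v))

end

end Fermat.Agent.CFT.Red
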