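import Mathlib
import Fermat.Statements.S14
import Fermat.Agent.Lib.InertiaLift
import Fermat.Agent.Lib.Frob.Bridge
set_option autoImplicit false
open NumberField ExtCitation
namespace Fermat.Agent.CFT.Red
local notation "Qb" => AlgebraicClosure ℚ
local notation "GQ" => (AlgebraicClosure ℚ ≃ₐ[ℚ] AlgebraicClosure ℚ)

/-!
# RED-A: basic facts on the cyclotomic exponent `ExtCitation.cycloExp` of the Prelude
-/

variable (p : ℕ) [Fact p.Prime]

/-- The cyclotomic exponent as the value of the modular cyclotomic character. -/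
theorem cycloExp_eq_val (σ : GQ) :
    haveI : NeZero p := ⟨(Fact.out : p.Prime).ne_zero⟩
    cycloExp p σ = ((modularCyclotomicCharacter Qb (card_rootsOfUnity_eq_self p)
      (σ : Qb ≃+* Qb) : (ZMod p)ˣ) : ZMod p).val := rfl

/-- The cast of the cyclotomic exponent to `ZMod p` is the modular cyclotomic character. -/
theorem cycloExp_cast (σ : GQ) :
    haveI : NeZero p := ⟨(Fact.out : p.Prime).ne_zero⟩
    (cycloExp p σ : ZMod p) = ((modularCyclotomicCharacter Qb (card_rootsOfUnity_eq_self p)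
      (σ : Qb ≃+* Qb) : (ZMod p)ˣ) : ZMod p) := by
  have : NeZero p := ⟨(Fact.out : p.Prime).ne_zero⟩
  rw [cycloExp_eq_val, ZMod.natCast_zmod_val]

theorem cycloExp_lt (σ : GQ) : cycloExp p σ < p := by
  have : NeZero p := ⟨(Fact.out : p.Prime).ne_zero⟩
  rw [cycloExp_eq_val]
  exact ZMod.val_lt _

theorem cycloExp_spec (σ : GQ) (ζ : Qb) (hζ : ζ ^ p = 1) : σ ζ = ζ ^ (cycloExp p σ) := by
  have : NeZero p := ⟨(Fact.out : p.Prime).ne_zero⟩
  have hζ0 : ζ ≠ 0 := by
    rintro rfl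
    rw [zero_pow (Fact.out : p.Prime).ne_zero] at hζ
    exact zero_ne_one hζ
  have ht : Units.mk0 ζ hζ0 ∈ rootsOfUnity p Qb := by
    rw [mem_rootsOfUnity]
    ext
    simpa using hζ
  have h := modularCyclotomicCharacter.spec Qb (card_rootsOfUnity_eq_self p) (σ : Qb ≃+* Qb) ht
  exact h

theorem cycloExp_mul (σ τ : GQ) :
    (cycloExp p (σ * τ) : ZMod p) = (cycloExp p σ : ZMod p) * (cycloExp p τ : ZMod p) := by
  have : NeZero p := ⟨(Fact.out : p.Prime).ne_zero⟩
  rw [cycloExp_cast, cycloExp_cast, cycloExp_cast]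
  have hmul : ((σ * τ : GQ) : Qb ≃+* Qb) = (σ : Qb ≃+* Qb) * (τ : Qb ≃+* Qb) :=
    RingEquiv.ext fun _ => rfl
  rw [hmul, map_mul, Units.val_mul]

theorem cycloExp_one : (cycloExp p (1 : GQ) : ZMod p) = 1 := by
  have : NeZero p := ⟨(Fact.out : p.Prime).ne_zero⟩
  rw [cycloExp_cast]
  have hone : ((1 : GQ) : Qb ≃+* Qb) = 1 := RingEquiv.ext fun _ => rfl
  rw [hone, map_one, Units.val_one]

theorem cycloExp_eq_one_iff (σ : GQ) (ζ : Qb) (hζ : IsPrimitiveRoot ζ p) :
    (cycloExp p σ : ZMod p) = 1 ↔ σ ζ = ζ := by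
  have hp : p.Prime := Fact.out
  have hspec := cycloExp_spec p σ ζ hζ.pow_eq_one
  constructor
  · intro h
    have h1 : cycloExp p σ % p = 1 % p := by
      rw [← ZMod.natCast_eq_natCast_iff']
      rw [h, Nat.cast_one]
    rw [Nat.mod_eq_of_lt (cycloExp_lt p σ), Nat.mod_eq_of_lt hp.one_lt] at h1
    rw [hspec, h1, pow_one]
  · intro h
    have h1 : ζ ^ cycloExp p σ = ζ ^ 1 := by rw [← hspec, h, pow_one]
    have h2 : cycloExp p σ = 1 := hζ.pow_inj (cycloExp_lt p σ) hp.one_lt h1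
    rw [h2, Nat.cast_one]

end Fermat.Agent.CFT.Red
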