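import Mathlib
import Fermat.Prelude.Def_ExtCitation_AdmissibleExtension_v2
import Fermat.Agent.Lib.GalQbar
import Fermat.Agent.CFT.Red.Abstract
import Fermat.Agent.CFT.Red.Cyclo

/-!
# The field cut out by a non-split admissible extension
-/

set_option autoImplicit false

namespace Fermat.Agent.CFT.Red

open ExtCitation

local notation "Qb" => AlgebraicClosure ℚ
local notation "GQ" => (AlgebraicClosure ℚ ≃ₐ[ℚ] AlgebraicClosure ℚ)

attribute [local instance] Fermat.Agent.Lib.GalQbar.isAlgClosure_rat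
  Fermat.Agent.Lib.GalQbar.isGalois_rat Fermat.Agent.Lib.GalQbar.normal_rat
  Fermat.Agent.Lib.GalQbar.isAlgebraic_rat

section ker

variable (V : Type) [AddCommGroup V] [DistribMulAction GQ V]

/-- The kernel of the Galois action on `V`. -/
def redKer : Subgroup GQ where
  carrier := {σ | ∀ v : V, σ • v = v}
  mul_mem' := by
    intro a b ha hb v
    rw [mul_smul, hb v, ha v]
  one_mem' := fun v => one_smul _ v
  inv_mem' := by
    intro a ha v
    rw [inv_smul_eq_iff, ha v]

theorem mem_redKer (σ : GQ) : σ ∈ redKer V ↔ ∀ v : V, σ • v = v := Iff.rfl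

instance redKer_normal : (redKer V).Normal := by
  refine ⟨fun n hn g v => ?_⟩
  rw [mul_smul, mul_smul, hn, smul_inv_smul]

/-- The field cut out by `V`. -/
noncomputable def redL : IntermediateField ℚ Qb := IntermediateField.fixedField (redKer V)

variable {V}

theorem redL_fixingSubgroup (hopen : IsOpen {σ : GQ | ∀ v : V, σ • v = v}) :
    (redL V).fixingSubgroup = redKer V := by
  have hNc : IsClosed ((redKer V : Subgroup GQ) : Set GQ) :=
    (redKer V).isClosed_of_isOpen hopen
  exact InfiniteGalois.fixingSubgroup_fixedField ⟨redKer V, hNc⟩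

theorem redL_finiteDimensional (hopen : IsOpen {σ : GQ | ∀ v : V, σ • v = v}) :
    FiniteDimensional ℚ (redL V) :=
  (InfiniteGalois.isOpen_iff_finite (redL V)).mp (by
    rw [redL_fixingSubgroup hopen]
    exact hopen)

theorem redL_isGalois (hopen : IsOpen {σ : GQ | ∀ v : V, σ • v = v}) :
    IsGalois ℚ (redL V) :=
  (InfiniteGalois.normal_iff_isGalois (redL V)).mp (by
    rw [redL_fixingSubgroup hopen]
    infer_instance)

/-- Two automorphisms agreeing on `redL V` differ by an element of the kernel. -/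
theorem inv_mul_mem_redKer (hopen : IsOpen {σ : GQ | ∀ v : V, σ • v = v}) (σ τ : GQ)
    (h : ∀ x ∈ redL V, σ x = τ x) : σ⁻¹ * τ ∈ redKer V := by
  rw [← redL_fixingSubgroup hopen, IntermediateField.mem_fixingSubgroup_iff]
  intro x hx
  show σ⁻¹ (τ x) = x
  rw [← h x hx]
  show (σ⁻¹ * σ) x = x
  rw [inv_mul_cancel]
  rfl

/-- Automorphisms agreeing on `redL V` act in the same way on `V`. -/
theorem smul_eq_of_eqOn_redL (hopen : IsOpen {σ : GQ | ∀ v : V, σ • v = v}) (σ τ : GQ)
    (h : ∀ x ∈ redL V, σ x = τ x) (v : V) : σ • v = τ • v := by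
  have h1 := inv_mul_mem_redKer hopen σ τ h v
  rw [mul_smul, inv_smul_eq_iff] at h1
  exact h1.symm

end ker

section cyclo

variable (p : ℕ) [Fact p.Prime]

/-- The mod `p` cyclotomic character with values in `ZMod p`. -/
noncomputable def redChi (σ : GQ) : ZMod p := ((cycloExp p σ : ℕ) : ZMod p)

theorem redChi_eq_one_iff (σ : GQ) {ζ : Qb} (hζ : IsPrimitiveRoot ζ p) :
    redChi p σ = 1 ↔ σ ζ = ζ := by
  have hp := (Fact.out : p.Prime)
  have hfin : IsOfFinOrder ζ := isOfFinOrder_iff_pow_eq_one.mpr ⟨p, hp.pos, hζ.pow_eq_one⟩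
  rw [cycloExp_spec p σ ζ hζ.pow_eq_one, redChi]
  constructor
  · intro h
    have h1 : cycloExp p σ ≡ 1 [MOD p] := by
      rw [← ZMod.natCast_eq_natCast_iff]
      simpa using h
    calc ζ ^ cycloExp p σ = ζ ^ 1 :=
          (hfin.pow_eq_pow_iff_modEq).mpr (by rw [← hζ.eq_orderOf]; exact h1)
      _ = ζ := pow_one ζ
  · intro h
    have h1 : cycloExp p σ ≡ 1 [MOD p] := by
      have h2 := (hfin.pow_eq_pow_iff_modEq (n := cycloExp p σ) (m := 1)).mp
        (by rw [pow_one]; exact h)
      rwa [← hζ.eq_orderOf] at h2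
    have := (ZMod.natCast_eq_natCast_iff _ _ _).mpr h1
    simpa using this

/-- If `(σ ζ) ^ c = ζ` then `c` is the inverse of the cyclotomic character of `σ`. -/
theorem redChi_inv_eq (σ : GQ) {ζ : Qb} (hζ : IsPrimitiveRoot ζ p) (c : ℕ)
    (h : (σ ζ) ^ c = ζ) : (redChi p σ)⁻¹ = (c : ZMod p) := by
  have hp := (Fact.out : p.Prime)
  have hfin : IsOfFinOrder ζ := isOfFinOrder_iff_pow_eq_one.mpr ⟨p, hp.pos, hζ.pow_eq_one⟩
  rw [cycloExp_spec p σ ζ hζ.pow_eq_one, ← pow_mul] at h
  have h2 := (hfin.pow_eq_pow_iff_modEq (n := cycloExp p σ * c) (m := 1)).mp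
    (by rw [pow_one]; exact h)
  rw [← hζ.eq_orderOf] at h2
  have h3 := (ZMod.natCast_eq_natCast_iff _ _ _).mpr h2
  rw [Nat.cast_mul, Nat.cast_one] at h3
  exact inv_eq_of_mul_eq_one_right h3

theorem exists_primitiveRoot_Qb : ∃ ζ : Qb, IsPrimitiveRoot ζ p := by
  have : NeZero p := ⟨(Fact.out : p.Prime).ne_zero⟩
  have : NeZero (p : Qb) := ⟨Nat.cast_ne_zero.mpr (NeZero.ne p)⟩
  exact HasEnoughRootsOfUnity.exists_primitiveRoot Qb p

end cyclo

section main

variable {p : ℕ} [Fact p.Prime] {V : Type} [AddCommGroup V] [Module (ZMod p) V]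
  [DistribMulAction GQ V] [SMulCommClass GQ (ZMod p) V] {C : Submodule (ZMod p) V}

/-- The abstract hypothesis `cyclo_quot` for `G = GQ`, `χ = redChi p`. -/
theorem red_quot (h : IsAdmissibleExtensionCts p V C) (σ : GQ) (x : V) :
    σ • x - redChi p σ • x ∈ C := h.cyclo_quot σ x

theorem red_exists_x0 (h : IsAdmissibleExtensionCts p V C) : ∃ x₀ : V, x₀ ∉ C :=
  red_exists_not_mem C h.card_sub h.card_total

/-- Elements of the kernel have trivial cyclotomic character. -/
theorem redChi_eq_one_of_mem_redKer (h : IsAdmissibleExtensionCts p V C) {σ : GQ}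
    (hσ : σ ∈ redKer V) : redChi p σ = 1 := by
  obtain ⟨x₀, hx₀⟩ := red_exists_x0 h
  exact red_chi_eq_one_of_trivial C (redChi p) (red_quot h) hx₀ hσ

/-- The `p`-th roots of unity lie in `redL V`. -/
theorem zeta_mem_redL (h : IsAdmissibleExtensionCts p V C) {ζ : Qb} (hζ : IsPrimitiveRoot ζ p) :
    ζ ∈ redL V := by
  rw [redL, IntermediateField.mem_fixedField_iff]
  intro σ hσ
  exact (redChi_eq_one_iff p σ hζ).mp (redChi_eq_one_of_mem_redKer h hσ)

variable (V) in
/-- A lift to the absolute Galois group of an automorphism of `redL V`. -/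
noncomputable def redLift (g : redL V ≃ₐ[ℚ] redL V) : GQ := g.liftNormal Qb

theorem redLift_apply (g : redL V ≃ₐ[ℚ] redL V) (x : redL V) :
    redLift V g (x : Qb) = (g x : Qb) := g.liftNormal_commutes Qb x

/-- Any automorphism agreeing with `g` on `redL V` acts on `V` as the chosen lift of `g`. -/
theorem smul_eq_redLift_smul (h : IsAdmissibleExtensionCts p V C) (g : redL V ≃ₐ[ℚ] redL V)
    (σ : GQ) (hσ : ∀ x : redL V, σ (x : Qb) = (g x : Qb)) (v : V) :
    σ • v = redLift V g • v := by
  apply smul_eq_of_eqOn_redL h.open_kernel σ (redLift V g)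
  intro x hx
  rw [hσ ⟨x, hx⟩]
  exact (redLift_apply g ⟨x, hx⟩).symm

/-- The chosen lift of a product acts as the product of the lifts. -/
theorem redLift_mul_smul (h : IsAdmissibleExtensionCts p V C) (g g' : redL V ≃ₐ[ℚ] redL V)
    (v : V) : redLift V (g * g') • v = (redLift V g * redLift V g') • v := by
  symm
  apply smul_eq_redLift_smul h
  intro x
  show redLift V g (redLift V g' (x : Qb)) = _
  rw [redLift_apply, redLift_apply]
  rfl

/-- The chosen lift of a conjugate acts as the conjugate of the lifts. -/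
theorem redLift_conj_smul (h : IsAdmissibleExtensionCts p V C) (t g : redL V ≃ₐ[ℚ] redL V)
    (v : V) : redLift V (t * g * t⁻¹) • v = (redLift V t * redLift V g * (redLift V t)⁻¹) • v := by
  symm
  apply smul_eq_redLift_smul h
  intro x
  have h1 : (redLift V t)⁻¹ (x : Qb) = ((t⁻¹ x : redL V) : Qb) := by
    have h2 := redLift_apply t (t⁻¹ x)
    have h3 : t (t⁻¹ x) = x := by
      show (t * t⁻¹) x = x
      rw [mul_inv_cancel]
      rfl
    rw [h3] at h2
    rw [← h2]
    show ((redLift V t)⁻¹ * redLift V t) _ = _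
    rw [inv_mul_cancel]
    rfl
  show redLift V t (redLift V g ((redLift V t)⁻¹ (x : Qb))) = _
  rw [h1, redLift_apply, redLift_apply]
  rfl

/-- The lift of `g` lies in the kernel iff `g = 1`. -/
theorem eq_one_of_redLift_mem_redKer (h : IsAdmissibleExtensionCts p V C)
    (g : redL V ≃ₐ[ℚ] redL V) (hg : redLift V g ∈ redKer V) : g = 1 := by
  rw [← redL_fixingSubgroup h.open_kernel, IntermediateField.mem_fixingSubgroup_iff] at hg
  ext x
  have h3 := redLift_apply g x
  rw [hg x x.2] at h3
  exact h3.symm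

end main

end Fermat.Agent.CFT.Red
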