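import Mathlib
import Fermat.Prelude.Def_ExtCitation_AdmissibleExtension_v2

/-!
# The mod `p` cyclotomic character of `Gal(ℚ̄/ℚ)` and the prelude's `cycloExp`

* `chi p : GQ →* (ZMod p)ˣ`, with `(ExtCitation.cycloExp p σ : ZMod p) = chi p σ`;
* `chi_spec`, `cycloExp_spec` : `σ ζ = ζ ^ cycloExp p σ` for every `p`-th root of unity `ζ`;
* `chi_eq_one_iff` : `chi p σ = 1 ↔ σ ζ = ζ` for a primitive `p`-th root of unity `ζ`;
* `chi_surjective` (irreducibility of the cyclotomic polynomial);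
* `splitsGlobally_of_trivial_on_ker` : if `ker (chi p)` acts trivially on an admissible extension
  then it splits globally (for `p ≠ 2`).
-/

set_option autoImplicit false

namespace Fermat.Agent.CFT.Red.CycloExp

local notation "Qb" => AlgebraicClosure ℚ
local notation "GQ" => (AlgebraicClosure ℚ ≃ₐ[ℚ] AlgebraicClosure ℚ)

variable (p : ℕ) [Fact p.Prime]

/-- The mod `p` cyclotomic character of the absolute Galois group of `ℚ`. -/
noncomputable def chi : GQ →* (ZMod p)ˣ :=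
  haveI : NeZero p := ⟨(Fact.out : p.Prime).ne_zero⟩
  { toFun := fun σ => modularCyclotomicCharacter Qb (ExtCitation.card_rootsOfUnity_eq_self p)
      (σ : Qb ≃+* Qb)
    map_one' := by
      have : ((1 : GQ) : Qb ≃+* Qb) = 1 := rfl
      rw [this, map_one]
    map_mul' := fun σ τ => by
      have : ((σ * τ : GQ) : Qb ≃+* Qb) = (σ : Qb ≃+* Qb) * (τ : Qb ≃+* Qb) := rfl
      rw [this, map_mul] }

theorem cycloExp_eq_val (σ : GQ) : ExtCitation.cycloExp p σ = ((chi p σ : (ZMod p)ˣ) : ZMod p).val :=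
  rfl

theorem cycloExp_cast (σ : GQ) : (ExtCitation.cycloExp p σ : ZMod p) = (chi p σ : (ZMod p)ˣ) := by
  have : NeZero p := ⟨(Fact.out : p.Prime).ne_zero⟩
  rw [cycloExp_eq_val, ZMod.natCast_zmod_val]

/-- `σ ζ = ζ ^ χ(σ)` for every `p`-th root of unity `ζ`. -/
theorem chi_spec (σ : GQ) {ζ : Qb} (hζ : ζ ^ p = 1) :
    σ ζ = ζ ^ ((chi p σ : (ZMod p)ˣ) : ZMod p).val := by
  have : NeZero p := ⟨(Fact.out : p.Prime).ne_zero⟩
  have hu : IsUnit ζ := IsUnit.of_pow_eq_one hζ (NeZero.ne p)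
  obtain ⟨t, rfl⟩ := hu
  have ht : t ∈ rootsOfUnity p Qb := by
    rw [mem_rootsOfUnity]
    exact Units.ext (by simpa using hζ)
  exact modularCyclotomicCharacter.spec Qb (ExtCitation.card_rootsOfUnity_eq_self p)
    (σ : Qb ≃+* Qb) ht

theorem cycloExp_spec (σ : GQ) {ζ : Qb} (hζ : ζ ^ p = 1) :
    σ ζ = ζ ^ ExtCitation.cycloExp p σ := by
  rw [cycloExp_eq_val]
  exact chi_spec p σ hζ

/-- Characterisation of `chi p σ` by its action on a primitive root. -/
theorem chi_eq_of_apply (σ : GQ) {ζ : Qb} (hζ : IsPrimitiveRoot ζ p) (c : (ZMod p)ˣ)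
    (h : σ ζ = ζ ^ (c : ZMod p).val) : chi p σ = c := by
  have : NeZero p := ⟨(Fact.out : p.Prime).ne_zero⟩
  have h1 := chi_spec p σ hζ.pow_eq_one
  rw [h] at h1
  have h2 := hζ.pow_inj (ZMod.val_lt _) (ZMod.val_lt _) h1
  exact (Units.ext (ZMod.val_injective p h2)).symm

theorem chi_eq_one_iff (σ : GQ) {ζ : Qb} (hζ : IsPrimitiveRoot ζ p) :
    chi p σ = 1 ↔ σ ζ = ζ := by
  have : NeZero p := ⟨(Fact.out : p.Prime).ne_zero⟩
  have hp1 : 1 < p := (Fact.out : p.Prime).one_lt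
  have : Fact (1 < p) := ⟨hp1⟩
  constructor
  · intro h
    have h1 := chi_spec p σ hζ.pow_eq_one
    rw [h, Units.val_one, ZMod.val_one, pow_one] at h1
    exact h1
  · intro h
    refine chi_eq_of_apply p σ hζ 1 ?_
    rw [h, Units.val_one, ZMod.val_one, pow_one]

/-- There is a primitive `p`-th root of unity in `ℚ̄`. -/
theorem exists_primitiveRoot : ∃ ζ : Qb, IsPrimitiveRoot ζ p := by
  have : NeZero p := ⟨(Fact.out : p.Prime).ne_zero⟩
  have : NeZero (p : Qb) := ⟨Nat.cast_ne_zero.mpr (NeZero.ne p)⟩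
  exact HasEnoughRootsOfUnity.exists_primitiveRoot Qb p

/-- The mod `p` cyclotomic character is surjective. -/
theorem chi_surjective : Function.Surjective (chi p) := by
  have : NeZero p := ⟨(Fact.out : p.Prime).ne_zero⟩
  intro c
  obtain ⟨ζ, hζ⟩ := exists_primitiveRoot p
  have hcop : ((c : ZMod p).val).Coprime p := ZMod.val_coe_unit_coprime c
  have hζ' : IsPrimitiveRoot (ζ ^ (c : ZMod p).val) p := hζ.pow_of_coprime _ hcop
  have hmin : minpoly ℚ ζ = minpoly ℚ (ζ ^ (c : ZMod p).val) := by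
    rw [← Polynomial.cyclotomic_eq_minpoly_rat hζ (NeZero.pos p),
      ← Polynomial.cyclotomic_eq_minpoly_rat hζ' (NeZero.pos p)]
  have hconj : IsConjRoot ℚ (ζ ^ (c : ZMod p).val) ζ := hmin.symm
  have : IsAlgClosure ℚ Qb := by
    have h : (AlgebraicClosure.instAlgebra ℚ : Algebra ℚ (AlgebraicClosure ℚ)) =
        DivisionRing.toRatAlgebra := Subsingleton.elim _ _
    rw [← h]
    infer_instance
  have : Normal ℚ Qb := IsAlgClosure.normal ℚ Qb
  obtain ⟨σ, hσ⟩ := (isConjRoot_iff_exists_algEquiv (K := ℚ) (L := Qb)).mp hconj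
  exact ⟨σ, chi_eq_of_apply p σ hζ c hσ⟩

/-- For `p ≠ 2` there is `σ` with `χ(σ) ≠ 1`. -/
theorem exists_chi_ne_one (hp2 : p ≠ 2) : ∃ σ : GQ, ((chi p σ : (ZMod p)ˣ) : ZMod p) ≠ 1 := by
  have : NeZero p := ⟨(Fact.out : p.Prime).ne_zero⟩
  have hp1 : 1 < p := (Fact.out : p.Prime).one_lt
  have : Fact (1 < p) := ⟨hp1⟩
  have h2 : ((-1 : (ZMod p)ˣ) : ZMod p) ≠ 1 := by
    rw [Units.val_neg, Units.val_one]
    intro h
    have h3 : (2 : ZMod p) = 0 := by
      have : (1 : ZMod p) + 1 = 0 := by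
        nth_rewrite 1 [← h]
        ring
      rw [← this]
      norm_num
    have h4 : ((2 : ℕ) : ZMod p) = 0 := by exact_mod_cast h3
    rw [ZMod.natCast_eq_zero_iff] at h4
    have := Nat.le_of_dvd (by norm_num) h4
    have := (Fact.out : p.Prime).two_le
    omega
  obtain ⟨σ, hσ⟩ := chi_surjective p (-1)
  exact ⟨σ, by rw [hσ]; exact h2⟩

section Split

variable {p}
variable {V : Type} [AddCommGroup V] [Module (ZMod p) V]
  [DistribMulAction (AlgebraicClosure ℚ ≃ₐ[ℚ] AlgebraicClosure ℚ) V]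
  [SMulCommClass (AlgebraicClosure ℚ ≃ₐ[ℚ] AlgebraicClosure ℚ) (ZMod p) V]

/-- If the kernel of the cyclotomic character acts trivially on an admissible extension `V`,
then `V` splits globally (Maschke for the abelian image, made explicit: the complement is the
`χ(σ₀)`-eigenspace of one `σ₀` with `χ(σ₀) ≠ 1`). Only `stable`, `fixed_sub` and `cyclo_quot`
are used. -/
theorem splitsGlobally_of_trivial_on_ker (hp2 : p ≠ 2) (C : Submodule (ZMod p) V)
    (hfix : ∀ σ : GQ, ∀ x ∈ C, σ • x = x)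
    (hquot : ∀ σ : GQ, ∀ x : V, σ • x - (ExtCitation.cycloExp p σ : ZMod p) • x ∈ C)
    (htriv : ∀ σ : GQ, chi p σ = 1 → ∀ v : V, σ • v = v) :
    ExtCitation.SplitsGlobally C := by
  obtain ⟨σ₀, hσ₀⟩ := exists_chi_ne_one p hp2
  set c₀ : ZMod p := ((chi p σ₀ : (ZMod p)ˣ) : ZMod p) with hc₀
  have hc1 : (1 - c₀) ≠ 0 := fun h => hσ₀ (sub_eq_zero.mp h).symm
  -- commutation with `σ₀`
  have hcomm : ∀ (σ : GQ) (v : V), σ • σ₀ • v = σ₀ • σ • v := by
    intro σ v
    have h1 : chi p (σ * σ₀ * σ⁻¹ * σ₀⁻¹) = 1 := by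
      simp only [map_mul, map_inv]
      rw [mul_comm (chi p σ) (chi p σ₀)]
      simp
    have h2 := htriv _ h1 (σ₀ • σ • v)
    rw [← h2]
    simp only [mul_smul, inv_smul_smul]
  let C' : Submodule (ZMod p) V :=
    { carrier := {v | σ₀ • v = c₀ • v}
      add_mem' := by
        intro a b ha hb
        simp only [Set.mem_ofPred_eq] at ha hb ⊢
        rw [smul_add, ha, hb, smul_add]
      zero_mem' := by simp
      smul_mem' := by
        intro r v hv
        simp only [Set.mem_ofPred_eq] at hv ⊢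
        rw [smul_comm σ₀ r v, hv, smul_comm] }
  have hC' : ∀ v, v ∈ C' ↔ σ₀ • v = c₀ • v := fun v => Iff.rfl
  refine ⟨C', ?_, ?_⟩
  · intro σ x hx
    rw [hC'] at hx ⊢
    rw [← hcomm, hx, smul_comm]
  · rw [isCompl_iff]
    constructor
    · rw [Submodule.disjoint_def]
      intro v hvC hvC'
      rw [hC'] at hvC'
      rw [hfix σ₀ v hvC] at hvC'
      have h3 : (1 - c₀) • v = 0 := by
        rw [sub_smul, one_smul, ← hvC', sub_self]
      rcases smul_eq_zero.mp h3 with h | h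
      · exact absurd h hc1
      · exact h
    · rw [codisjoint_iff, eq_top_iff]
      intro v _
      obtain ⟨w, hw⟩ : ∃ w : V, w = σ₀ • v - c₀ • v := ⟨_, rfl⟩
      have hwC : w ∈ C := by
        have := hquot σ₀ v
        rw [cycloExp_cast] at this
        rw [hw]
        exact this
      have hσw : σ₀ • w = w := hfix σ₀ w hwC
      have hv' : v - (1 - c₀)⁻¹ • w ∈ C' := by
        rw [hC']
        have e1 : σ₀ • v = c₀ • v + w := by rw [hw]; abel
        rw [smul_sub, smul_comm σ₀ ((1 - c₀)⁻¹) w, hσw, e1, smul_sub, smul_smul]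
        have e2 : (1 - c₀)⁻¹ • w - (c₀ * (1 - c₀)⁻¹) • w = w := by
          rw [← sub_smul]
          have : (1 - c₀)⁻¹ - c₀ * (1 - c₀)⁻¹ = 1 := by
            field_simp
          rw [this, one_smul]
        generalize (1 - c₀)⁻¹ • w = A at e2 ⊢
        generalize (c₀ * (1 - c₀)⁻¹) • w = B at e2 ⊢
        rw [← e2]
        abel
      have : v = (1 - c₀)⁻¹ • w + (v - (1 - c₀)⁻¹ • w) := by abel
      rw [this]
      exact Submodule.add_mem_sup (C.smul_mem _ hwC) hv'

end Split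

end Fermat.Agent.CFT.Red.CycloExp
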