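import Mathlib
import Fermat.Statements.S14
import Fermat.Agent.Lib.InertiaLift
import Fermat.Agent.Lib.Frob.Bridge
import Fermat.Agent.CFT.Red.CycloExp
set_option autoImplicit false
open NumberField ExtCitation
namespace Fermat.Agent.CFT.Red
local notation "Qb" => AlgebraicClosure ℚ
local notation "GQ" => (AlgebraicClosure ℚ ≃ₐ[ℚ] AlgebraicClosure ℚ)

variable {p : ℕ} [Fact p.Prime] {V : Type} [AddCommGroup V] [Module (ZMod p) V]
  [DistribMulAction GQ V] [SMulCommClass GQ (ZMod p) V] {C : Submodule (ZMod p) V}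

/-- An element of the decomposition group at a place over `p` with trivial cyclotomic exponent
acts trivially on an admissible extension. -/
theorem smul_eq_of_mem_decompositionSubgroup (hadm : IsAdmissibleExtension p V C)
    (A : ValuationSubring Qb) (hA : A.LiesOverPrime p) (σ : GQ)
    (hσ : σ ∈ A.decompositionSubgroup ℚ) (hχ : (cycloExp p σ : ZMod p) = 1) (v : V) :
    σ • v = v := by
  obtain ⟨C', hC', hcompl⟩ := hadm.locally_split A hA
  have hv : v ∈ C ⊔ C' := by
    rw [hcompl.sup_eq_top]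
    exact Submodule.mem_top
  obtain ⟨c, hc, c', hc', rfl⟩ := Submodule.mem_sup.mp hv
  have h1 : σ • c = c := hadm.fixed_sub σ c hc
  have h2 : σ • c' - c' ∈ C := by
    have := hadm.cyclo_quot σ c'
    rwa [hχ, one_smul] at this
  have h3 : σ • c' - c' ∈ C' := C'.sub_mem (hC' σ hσ c' hc') hc'
  have h4 : σ • c' - c' = 0 := by
    have := hcompl.disjoint
    rw [Submodule.disjoint_def] at this
    exact this _ h2 h3
  rw [smul_add, h1, sub_eq_zero.mp h4]

/-- Elements acting trivially on an admissible extension have trivial cyclotomic exponent. -/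
theorem unr_cycloExp_eq_one_of_smul_eq (hadm : IsAdmissibleExtension p V C) (n : GQ)
    (hn : ∀ v : V, n • v = v) : (cycloExp p n : ZMod p) = 1 := by
  have hp1 : 1 < p := (Fact.out : p.Prime).one_lt
  obtain ⟨x, hx⟩ : ∃ x : V, x ∉ C := by
    by_contra h
    push Not at h
    have h1 : Nat.card C = Nat.card V := Nat.card_congr (Equiv.subtypeUnivEquiv h)
    rw [hadm.card_sub, hadm.card_total] at h1
    nlinarith
  by_contra hne
  have h1 := hadm.cyclo_quot n x
  rw [hn x] at h1
  have h2 : (1 - (cycloExp p n : ZMod p)) • x ∈ C := by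
    rw [sub_smul, one_smul]
    exact h1
  have h3 : (1 - (cycloExp p n : ZMod p)) ≠ 0 := fun h => hne (sub_eq_zero.mp h).symm
  have h4 := C.smul_mem (1 - (cycloExp p n : ZMod p))⁻¹ h2
  rw [smul_smul, inv_mul_cancel₀ h3, one_smul] at h4
  exact hx h4

/-- A nonzero prime of a number ring contains a rational prime. -/
theorem unr_exists_prime_natCast_mem {F : Type*} [Field F] [NumberField F] (P : Ideal (𝓞 F))
    (hP : P.IsPrime) (hP0 : P ≠ ⊥) : ∃ ℓ : ℕ, ℓ.Prime ∧ (ℓ : 𝓞 F) ∈ P := by
  have hmem : (Ideal.absNorm P : 𝓞 F) ∈ P := Ideal.absNorm_mem P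
  have hn0 : Ideal.absNorm P ≠ 0 := fun h => hP0 (Ideal.absNorm_eq_zero_iff.mp h)
  have key : ∀ n : ℕ, n ≠ 0 → (n : 𝓞 F) ∈ P → ∃ ℓ : ℕ, ℓ.Prime ∧ (ℓ : 𝓞 F) ∈ P := by
    intro n
    induction n using Nat.strong_induction_on with
    | _ n ih =>
      intro hn hnP
      by_cases h1 : n = 1
      · exfalso
        rw [h1, Nat.cast_one] at hnP
        exact hP.ne_top ((Ideal.eq_top_iff_one P).mpr hnP)
      · have hℓ := Nat.minFac_prime h1
        obtain ⟨m, hm⟩ := Nat.minFac_dvd n
        have hm0 : m ≠ 0 := by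
          rintro rfl
          exact hn (by rw [hm, mul_zero])
        rw [hm, Nat.cast_mul] at hnP
        rcases hP.mem_or_mem hnP with h | h
        · exact ⟨_, hℓ, h⟩
        · have hlt : m < n := by
            have h2 : 2 ≤ n.minFac := hℓ.two_le
            have hmpos : 0 < m := Nat.pos_of_ne_zero hm0
            nlinarith
          exact ih m hlt hm0 h
  exact key _ hn0 hmem

/-- Auxiliary form of `smul_eq_of_inertia` for an arbitrary intermediate field containing the
fixed points of `N`. -/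
theorem unr_smul_eq_of_inertia_aux (hadm : IsAdmissibleExtensionCts p V C)
    (N : Subgroup GQ) [N.Normal] (hN : IsOpen (N : Set GQ))
    (hNV : ∀ σ : GQ, σ ∈ N ↔ ∀ v : V, σ • v = v)
    (F : IntermediateField ℚ Qb) (hFN : ∀ b : Qb, (∀ n ∈ N, n b = b) → b ∈ F)
    [NumberField F] [Normal ℚ F]
    (P : Ideal (𝓞 F)) (hP : P.IsPrime) (hP0 : P ≠ ⊥)
    (σ : GQ) (hχ : (cycloExp p σ : ZMod p) = 1)
    (hσ : ∀ x : 𝓞 F, (AlgEquiv.restrictNormalHom F σ) • x - x ∈ P) :
    ∀ v : V, σ • v = v := by
  have hadm' : IsAdmissibleExtension p V C := hadm.toIsAdmissibleExtension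
  have hPmax : P.IsMaximal := Ring.DimensionLEOne.maximalOfPrime hP0 hP
  obtain ⟨ℓ, hℓ, hℓP⟩ := unr_exists_prime_natCast_mem P hP hP0
  obtain ⟨A, hAspec⟩ := Fermat.Agent.Lib.Frob.exists_valuationSubring_over F P
  have hA : A.LiesOverPrime ℓ := by
    have := (hAspec (ℓ : 𝓞 F)).2.mp hℓP
    simpa [ValuationSubring.LiesOverPrime] using this
  have hNc : IsClosed (N : Set GQ) := N.isClosed_of_isOpen hN
  -- lift inertia
  have hτ : ∀ b : Qb, IsIntegral ℤ b → (∀ n ∈ N, n b = b) → A.valuation (σ b - b) < 1 := by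
    intro b hb hbN
    have hbF : b ∈ F := hFN b hbN
    have hbint : IsIntegral ℤ (⟨b, hbF⟩ : F) := by
      have h1 : IsIntegral ℤ (algebraMap F Qb ⟨b, hbF⟩) := hb
      exact (isIntegral_algebraMap_iff (algebraMap F Qb).injective).mp h1
    let x : 𝓞 F := ⟨⟨b, hbF⟩, hbint⟩
    have h1 := (hAspec ((AlgEquiv.restrictNormalHom F σ) • x - x)).2.mp (hσ x)
    have h2 : ((((AlgEquiv.restrictNormalHom F σ) • x - x : 𝓞 F) : F) : Qb) = σ b - b := by
      have e1 : (((AlgEquiv.restrictNormalHom F σ) • x - x : 𝓞 F) : F) =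
          (AlgEquiv.restrictNormalHom F σ) (x : F) - (x : F) := rfl
      rw [e1]
      have e2 : (((AlgEquiv.restrictNormalHom F σ) (x : F) : F) : Qb) = σ ((x : F) : Qb) :=
        AlgEquiv.restrictNormal_commutes σ F (x : F)
      push_cast
      rw [e2]
      rfl
    rw [h2] at h1
    exact A.mem_nonunits_iff.mp h1
  obtain ⟨n, hnN, hnσ⟩ :=
    Fermat.Agent.Lib.InertiaLift.exists_mul_mem_inertiaSubgroupIn hℓ A hA N hNc σ hτ
  have hntriv : ∀ v : V, n • v = v := (hNV n).mp hnN
  -- it suffices that `n * σ` acts trivially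
  have hsuff : (∀ v : V, (n * σ) • v = v) → ∀ v : V, σ • v = v := by
    intro h v
    have h1 := h v
    rw [mul_smul, hntriv] at h1
    exact h1
  apply hsuff
  by_cases hℓp : ℓ = p
  · subst hℓp
    have hdec : n * σ ∈ A.decompositionSubgroup ℚ := by
      obtain ⟨g, -, hg⟩ := hnσ
      rw [← hg]
      exact g.2
    have hχn : (cycloExp ℓ n : ZMod ℓ) = 1 := unr_cycloExp_eq_one_of_smul_eq hadm' n hntriv
    have hχ' : (cycloExp ℓ (n * σ) : ZMod ℓ) = 1 := by
      rw [CycloExp.cycloExp_cast, map_mul, Units.val_mul, ← CycloExp.cycloExp_cast,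
        ← CycloExp.cycloExp_cast, hχn, hχ, one_mul]
    exact smul_eq_of_mem_decompositionSubgroup hadm' A hA (n * σ) hdec hχ'
  · exact hadm'.unramified_outside ℓ hℓ hℓp A hA (n * σ) hnσ

/-- **Unramifiedness of the splitting field.** Let `N` be the kernel of the action on an
admissible extension `V` and `F` its fixed field.  If `σ` has trivial cyclotomic exponent and its
restriction to `F` lies in the inertia group of a nonzero prime `P` of `F`, then `σ` acts trivially
on `V`. -/
theorem smul_eq_of_inertia (hadm : IsAdmissibleExtensionCts p V C)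
    (N : Subgroup GQ) [N.Normal] (hN : IsOpen (N : Set GQ))
    (hNV : ∀ σ : GQ, σ ∈ N ↔ ∀ v : V, σ • v = v)
    [NumberField (IntermediateField.fixedField N)] [Normal ℚ (IntermediateField.fixedField N)]
    (P : Ideal (𝓞 (IntermediateField.fixedField N))) (hP : P.IsPrime) (hP0 : P ≠ ⊥)
    (σ : GQ) (hχ : (cycloExp p σ : ZMod p) = 1)
    (hσ : ∀ x : 𝓞 (IntermediateField.fixedField N),
      (AlgEquiv.restrictNormalHom (IntermediateField.fixedField N) σ) • x - x ∈ P) :
    ∀ v : V, σ • v = v :=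
  unr_smul_eq_of_inertia_aux hadm N hN hNV (IntermediateField.fixedField N)
    (fun b hb => (IntermediateField.mem_fixedField_iff N b).mpr fun n hn => hb n hn)
    P hP hP0 σ hχ hσ

end Fermat.Agent.CFT.Red
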