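import Mathlib
import Fermat.Statements.S14
import Fermat.Agent.CFT.Red.Setup
import Fermat.Agent.CFT.Red.Unram

/-!
# RED: the number field cut out by a non-split admissible extension

`exists_field_of_not_splits`: a non-split admissible extension gives a finite Galois extension
`L / ℚ` inside `AlgebraicClosure ℚ` containing `ζ_p`, with the cyclotomic character `χ` and a
function `b` on `Gal(L/ℚ)` which on `{χ = 1} = Gal(L/ℚ(ζ_p))` is an injective, nontrivial
homomorphism to `ZMod p`, transforming under conjugation by `χ⁻¹`, and such that `L / ℚ(ζ_p)` has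
trivial inertia groups.
-/

set_option autoImplicit false

open NumberField ExtCitation

namespace Fermat.Agent.CFT.Red

local notation "Qb" => AlgebraicClosure ℚ
local notation "GQ" => (AlgebraicClosure ℚ ≃ₐ[ℚ] AlgebraicClosure ℚ)

attribute [local instance] Fermat.Agent.Lib.GalQbar.isAlgClosure_rat
  Fermat.Agent.Lib.GalQbar.isGalois_rat Fermat.Agent.Lib.GalQbar.normal_rat
  Fermat.Agent.Lib.GalQbar.isAlgebraic_rat

section

variable {p : ℕ} [Fact p.Prime] {V : Type} [AddCommGroup V] [Module (ZMod p) V]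
  [DistribMulAction GQ V] [SMulCommClass GQ (ZMod p) V] {C : Submodule (ZMod p) V}

/-- A `ZMod p`-linear coordinate on a submodule of cardinality `p`. -/
theorem red_exists_coord (hC : Nat.card C = p) : Nonempty (C ≃ₗ[ZMod p] ZMod p) := by
  have hp := (Fact.out : p.Prime)
  have hfin : Finite C := Nat.finite_of_card_ne_zero (by rw [hC]; exact hp.ne_zero)
  have hnt : Nontrivial C := by
    rw [← Finite.one_lt_card_iff_nontrivial, hC]
    exact hp.one_lt
  obtain ⟨c₀, hc₀⟩ := exists_ne (0 : C)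
  let f : ZMod p →ₗ[ZMod p] C := LinearMap.toSpanSingleton (ZMod p) C c₀
  have hf : Function.Injective f := by
    rw [injective_iff_map_eq_zero]
    intro a ha
    have h1 : a • c₀ = 0 := ha
    rcases smul_eq_zero.mp h1 with h | h
    · exact h
    · exact absurd h hc₀
  have hbij : Function.Bijective f :=
    (Nat.bijective_iff_injective_and_card f).mpr ⟨hf, by rw [hC, Nat.card_zmod]⟩
  exact ⟨(LinearEquiv.ofBijective f hbij).symm⟩

variable (p) in
/-- The character `χ` on `Gal(redL V / ℚ)`. -/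
noncomputable def redChiL (g : redL V ≃ₐ[ℚ] redL V) : ZMod p := redChi p (redLift V g)

variable (p) in
/-- The function `b` on `Gal(redL V / ℚ)`. -/
noncomputable def redBL (e : C ≃ₗ[ZMod p] ZMod p) (x₀ : V) (g : redL V ≃ₐ[ℚ] redL V) : ZMod p :=
  open Classical in
  if h : redLift V g • x₀ - x₀ ∈ C then e ⟨_, h⟩ else 0

theorem redBL_eq (e : C ≃ₗ[ZMod p] ZMod p) (x₀ : V) (g : redL V ≃ₐ[ℚ] redL V)
    (h : redLift V g • x₀ - x₀ ∈ C) : redBL p e x₀ g = e ⟨_, h⟩ := by
  rw [redBL, dif_pos h]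

/-- If `χ g = 1` the lift of `g` moves `x₀` by an element of `C`. -/
theorem redLift_sub_mem (hadm : IsAdmissibleExtensionCts p V C) (x₀ : V)
    {g : redL V ≃ₐ[ℚ] redL V} (hg : redChiL p g = 1) : redLift V g • x₀ - x₀ ∈ C :=
  red_smul_sub_mem C (redChi p) (red_quot hadm) hg x₀

/-- The main statement, with the unramifiedness input as a hypothesis. -/
theorem exists_field_of_not_splits_aux (hadm : IsAdmissibleExtensionCts p V C)
    (hns : ¬ SplitsGlobally C)
    (hU : haveI : FiniteDimensional ℚ (redL V) := redL_finiteDimensional hadm.open_kernel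
      haveI : IsGalois ℚ (redL V) := redL_isGalois hadm.open_kernel
      haveI : NumberField (redL V) := ⟨⟩
      ∀ (P : Ideal (𝓞 (redL V))), P.IsPrime → P ≠ ⊥ → ∀ σ : GQ, (cycloExp p σ : ZMod p) = 1 →
        (∀ x : 𝓞 (redL V), (AlgEquiv.restrictNormalHom (redL V) σ) • x - x ∈ P) →
        ∀ v : V, σ • v = v) :
    ∃ (L : IntermediateField ℚ Qb) (_ : FiniteDimensional ℚ L) (_ : IsGalois ℚ L) (ζ : L)
      (χ b : Gal(L/ℚ) → ZMod p),
      IsPrimitiveRoot ζ p ∧ (∀ g, g ζ = ζ ^ (χ g).val) ∧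
      (∀ g h, χ g = 1 → χ h = 1 → b (g * h) = b g + b h) ∧
      (∀ t g, χ g = 1 → b (t * g * t⁻¹) = (χ t)⁻¹ * b g) ∧
      (∀ g, χ g = 1 → b g = 0 → g = 1) ∧ (∃ g, χ g = 1 ∧ b g ≠ 0) ∧
      (haveI : NumberField L := ⟨⟩
       ∀ P : Ideal (𝓞 L), P.IsPrime → P ≠ ⊥ → ∀ g : Gal(L/ℚ), χ g = 1 →
        (∀ x : 𝓞 L, g • x - x ∈ P) → g = 1) := by
  have hp := (Fact.out : p.Prime)
  have hfd : FiniteDimensional ℚ (redL V) := redL_finiteDimensional hadm.open_kernel
  have hgal : IsGalois ℚ (redL V) := redL_isGalois hadm.open_kernel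
  obtain ⟨ζ₀, hζ₀⟩ := exists_primitiveRoot_Qb p
  obtain ⟨x₀, hx₀⟩ := red_exists_x0 hadm
  obtain ⟨e⟩ := red_exists_coord (C := C) hadm.card_sub
  have hfix := hadm.fixed_sub
  have hquot := red_quot hadm
  have hstab : ∀ σ : GQ, ∀ x ∈ C, σ • x ∈ C := hadm.stable
  refine ⟨redL V, hfd, hgal, ⟨ζ₀, zeta_mem_redL hadm hζ₀⟩, redChiL p, redBL p e x₀,
    ?_, ?_, ?_, ?_, ?_, ?_, ?_⟩
  · -- primitive root
    exact IsPrimitiveRoot.coe_submonoidClass_iff.mp hζ₀
  · -- cyclotomic character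
    intro g
    apply Subtype.ext
    have h1 := redLift_apply g ⟨ζ₀, zeta_mem_redL hadm hζ₀⟩
    have h2 := cycloExp_spec p (redLift V g) ζ₀ hζ₀.pow_eq_one
    have h3 : (redChiL p g).val = cycloExp p (redLift V g) := by
      show ((cycloExp p (redLift V g) : ℕ) : ZMod p).val = _
      exact ZMod.val_cast_of_lt (cycloExp_lt p _)
    rw [h3]
    show ((g ⟨ζ₀, zeta_mem_redL hadm hζ₀⟩ : redL V) : Qb) = ζ₀ ^ cycloExp p (redLift V g)
    rw [← h1, ← h2]
  · -- additivity
    intro g g' hg hg'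
    have hm := redLift_sub_mem hadm x₀ hg
    have hm' := redLift_sub_mem hadm x₀ hg'
    have hsum : redLift V (g * g') • x₀ - x₀ =
        (redLift V g • x₀ - x₀) + (redLift V g' • x₀ - x₀) := by
      rw [redLift_mul_smul hadm]
      exact red_b_mul C (redChi p) hfix hquot hg' x₀
    have hmm : redLift V (g * g') • x₀ - x₀ ∈ C := by
      rw [hsum]; exact C.add_mem hm hm'
    rw [redBL_eq e x₀ _ hmm, redBL_eq e x₀ _ hm, redBL_eq e x₀ _ hm', ← map_add]
    congr 1
    exact Subtype.ext hsum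
  · -- conjugation
    intro t g hg
    have hm := redLift_sub_mem hadm x₀ hg
    have hconj : redLift V (t * g * t⁻¹) • x₀ - x₀ =
        (redChi p (redLift V t))⁻¹ • (redLift V g • x₀ - x₀) := by
      rw [redLift_conj_smul hadm]
      exact red_b_conj C (redChi p) hfix hquot hx₀ (redLift V t) hg
    have hmm : redLift V (t * g * t⁻¹) • x₀ - x₀ ∈ C := by
      rw [hconj]; exact C.smul_mem _ hm
    rw [redBL_eq e x₀ _ hmm, redBL_eq e x₀ _ hm]
    have h1 : (⟨redLift V (t * g * t⁻¹) • x₀ - x₀, hmm⟩ : C) =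
        (redChi p (redLift V t))⁻¹ • (⟨redLift V g • x₀ - x₀, hm⟩ : C) := Subtype.ext hconj
    rw [h1, map_smul, smul_eq_mul]
    rfl
  · -- injectivity
    intro g hg hb
    have hm := redLift_sub_mem hadm x₀ hg
    rw [redBL_eq e x₀ _ hm] at hb
    have h0 : (⟨redLift V g • x₀ - x₀, hm⟩ : C) = 0 := by
      rw [← e.map_eq_zero_iff]; exact hb
    have h1 : redLift V g • x₀ = x₀ := sub_eq_zero.mp (congrArg Subtype.val h0)
    apply eq_one_of_redLift_mem_redKer hadm
    exact fun v => red_trivial_of_fix C hfix hadm.card_sub hadm.card_total hx₀ h1 v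
  · -- non-triviality
    obtain ⟨σ, hσ1, hσ2⟩ := red_exists_nontrivial C (redChi p) hfix hquot hadm.card_sub
      hadm.card_total hns hx₀
    let g : redL V ≃ₐ[ℚ] redL V := AlgEquiv.restrictNormalHom (redL V) σ
    have hgσ : ∀ x : redL V, σ (x : Qb) = (g x : Qb) := fun x =>
      (AlgEquiv.restrictNormal_commutes σ (redL V) x).symm
    have hact : ∀ v : V, σ • v = redLift V g • v := smul_eq_redLift_smul hadm g σ hgσ
    have hχ : redChiL p g = 1 := by
      show redChi p (redLift V g) = 1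
      rw [redChi_eq_one_iff p _ hζ₀]
      have h1 := redLift_apply g ⟨ζ₀, zeta_mem_redL hadm hζ₀⟩
      have h2 := hgσ ⟨ζ₀, zeta_mem_redL hadm hζ₀⟩
      have h3 : σ ζ₀ = ζ₀ := (redChi_eq_one_iff p σ hζ₀).mp hσ1
      show redLift V g ζ₀ = ζ₀
      rw [show redLift V g ζ₀ = ((g ⟨ζ₀, zeta_mem_redL hadm hζ₀⟩ : redL V) : Qb) from h1, ← h2]
      exact h3
    refine ⟨g, hχ, ?_⟩
    have hm := redLift_sub_mem hadm x₀ hχ
    rw [redBL_eq e x₀ _ hm]
    intro hb
    have h0 : (⟨redLift V g • x₀ - x₀, hm⟩ : C) = 0 := by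
      rw [← e.map_eq_zero_iff]; exact hb
    have h1 : redLift V g • x₀ = x₀ := sub_eq_zero.mp (congrArg Subtype.val h0)
    exact hσ2 ((hact x₀).trans h1)
  · -- unramified
    intro P hP hP0 g hg hgP
    apply eq_one_of_redLift_mem_redKer hadm
    refine hU P hP hP0 (redLift V g) hg ?_
    have hres : AlgEquiv.restrictNormalHom (redL V) (redLift V g) = g :=
      g.restrict_liftNormal Qb
    rw [hres]
    exact hgP

/-- **RED.** A non-split admissible extension cuts out a finite Galois extension `L / ℚ` inside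
`AlgebraicClosure ℚ` containing `ζ_p`, together with the cyclotomic character `χ` of `Gal(L/ℚ)`
and a function `b` which on `{χ = 1}` is an injective nontrivial homomorphism to `ZMod p`
transforming under conjugation by `χ⁻¹`; moreover `L / ℚ(ζ_p)` has trivial inertia groups. -/
theorem exists_field_of_not_splits {p : ℕ} [Fact p.Prime] (h3 : 3 ≤ p) (V : Type)
    [AddCommGroup V] [Module (ZMod p) V] [DistribMulAction GQ V] [SMulCommClass GQ (ZMod p) V]
    (C : Submodule (ZMod p) V) (hadm : IsAdmissibleExtensionCts p V C)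
    (hns : ¬ SplitsGlobally C) :
    ∃ (L : IntermediateField ℚ Qb) (_ : FiniteDimensional ℚ L) (_ : IsGalois ℚ L) (ζ : L)
      (χ b : Gal(L/ℚ) → ZMod p),
      IsPrimitiveRoot ζ p ∧ (∀ g, g ζ = ζ ^ (χ g).val) ∧
      (∀ g h, χ g = 1 → χ h = 1 → b (g * h) = b g + b h) ∧
      (∀ t g, χ g = 1 → b (t * g * t⁻¹) = (χ t)⁻¹ * b g) ∧
      (∀ g, χ g = 1 → b g = 0 → g = 1) ∧ (∃ g, χ g = 1 ∧ b g ≠ 0) ∧
      (haveI : NumberField L := ⟨⟩
       ∀ P : Ideal (𝓞 L), P.IsPrime → P ≠ ⊥ → ∀ g : Gal(L/ℚ), χ g = 1 →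
        (∀ x : 𝓞 L, g • x - x ∈ P) → g = 1) := by
  have _ := h3
  have hfd : FiniteDimensional ℚ (IntermediateField.fixedField (redKer V)) :=
    redL_finiteDimensional hadm.open_kernel
  have hgal : IsGalois ℚ (IntermediateField.fixedField (redKer V)) :=
    redL_isGalois hadm.open_kernel
  have hnf : NumberField (IntermediateField.fixedField (redKer V)) := ⟨⟩
  refine exists_field_of_not_splits_aux hadm hns ?_
  intro P hP hP0 σ hχ hσ
  exact smul_eq_of_inertia hadm (redKer V) hadm.open_kernel (fun _ => Iff.rfl) P hP hP0 σ hχ hσ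

end

end Fermat.Agent.CFT.Red
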