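import Mathlib
import Fermat.Prelude.Def_ExtCitation_AdmissibleExtension_v2

/-!
# RED-B: the cocycle `b` of an admissible extension

For an admissible extension `0 → C → V → V/C → 0` (`C` of order `p` with trivial action, `V` of
order `p ^ 2`, the quotient twisted by the mod `p` cyclotomic exponent `χ`), we choose `e1 ∈ C`,
`e2 ∉ C` and write `σ • e2 = χ σ • e2 + b σ • e1`.  Then `b (σ τ) = χ τ * b σ + b τ`, the kernel
of the action is `{χ = 1, b = 0}`, and if `b` vanishes on `{χ = 1}` the extension splits.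
-/

set_option autoImplicit false

open NumberField ExtCitation

namespace Fermat.Agent.CFT.Red

local notation "GQ" => (AlgebraicClosure ℚ ≃ₐ[ℚ] AlgebraicClosure ℚ)

section Abstract

variable {p : ℕ} [Fact p.Prime] {G : Type*} [Group G] {V : Type*} [AddCommGroup V]
  [Module (ZMod p) V] [DistribMulAction G V] [SMulCommClass G (ZMod p) V]

omit [DistribMulAction G V] [SMulCommClass G (ZMod p) V] in
/-- Linear independence of `e1 ∈ C \ {0}` and `w ∉ C`. -/
lemma coc_indep {C : Submodule (ZMod p) V} {e1 w : V} (he1 : e1 ∈ C) (he1' : e1 ≠ 0)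
    (hw : w ∉ C) {x y : ZMod p} (h : x • e1 + y • w = 0) : x = 0 ∧ y = 0 := by
  have hy : y = 0 := by
    by_contra hy
    apply hw
    have h2 : y • w = -(x • e1) := eq_neg_of_add_eq_zero_right h
    have h3 : w = (-(y⁻¹ * x)) • e1 := by
      calc w = y⁻¹ • (y • w) := by rw [smul_smul, inv_mul_cancel₀ hy, one_smul]
        _ = y⁻¹ • (-(x • e1)) := by rw [h2]
        _ = (-(y⁻¹ * x)) • e1 := by rw [smul_neg, smul_smul, neg_smul]
    rw [h3]
    exact C.smul_mem _ he1
  subst hy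
  rw [zero_smul, add_zero] at h
  exact ⟨(smul_eq_zero.mp h).resolve_right he1', rfl⟩

omit [DistribMulAction G V] [SMulCommClass G (ZMod p) V] in
/-- `e1 ∈ C \ {0}` and `w ∉ C` span `V` when `V` has `p ^ 2` elements. -/
lemma coc_span {C : Submodule (ZMod p) V} (hV : Nat.card V = p ^ 2) {e1 w : V} (he1 : e1 ∈ C)
    (he1' : e1 ≠ 0) (hw : w ∉ C) (v : V) : ∃ x y : ZMod p, v = x • e1 + y • w := by
  have hp : p.Prime := Fact.out
  have : Finite V := Nat.finite_of_card_ne_zero (by rw [hV]; exact pow_ne_zero _ hp.ne_zero)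
  let f : ZMod p × ZMod p → V := fun xy ↦ xy.1 • e1 + xy.2 • w
  have hf : Function.Injective f := by
    rintro ⟨x, y⟩ ⟨x', y'⟩ h
    have h0 : x • e1 + y • w - (x' • e1 + y' • w) = 0 := sub_eq_zero.mpr h
    have h' : (x - x') • e1 + (y - y') • w = 0 := by
      rw [sub_smul, sub_smul, ← h0]
      abel
    obtain ⟨h1, h2⟩ := coc_indep he1 he1' hw h'
    rw [sub_eq_zero] at h1 h2
    rw [h1, h2]
  have hcard : Nat.card V ≤ Nat.card (ZMod p × ZMod p) := by
    rw [Nat.card_prod, Nat.card_zmod, hV, sq]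
  obtain ⟨⟨x, y⟩, hxy⟩ := (hf.bijective_of_nat_card_le hcard).2 v
  exact ⟨x, y, hxy.symm⟩

/-- **The cocycle of an extension, abstract form.**  `χ` is an arbitrary function; its
multiplicativity is a consequence of the hypotheses. -/
theorem exists_cocycle_abstract (C : Submodule (ZMod p) V) (χ : G → ZMod p)
    (hfix : ∀ σ : G, ∀ x ∈ C, σ • x = x) (hquot : ∀ σ : G, ∀ x : V, σ • x - χ σ • x ∈ C)
    (hC : Nat.card C = p) (hV : Nat.card V = p ^ 2) :
    ∃ b : G → ZMod p,
      (∀ σ τ : G, χ (σ * τ) = χ σ * χ τ) ∧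
      (∀ σ τ : G, b (σ * τ) = χ τ * b σ + b τ) ∧
      (∀ σ : G, (∀ v : V, σ • v = v) ↔ (χ σ = 1 ∧ b σ = 0)) ∧
      ((∀ σ : G, χ σ = 1 → b σ = 0) →
        ∃ C' : Submodule (ZMod p) V, (∀ σ : G, ∀ x ∈ C', σ • x ∈ C') ∧ IsCompl C C') := by
  have hp : p.Prime := Fact.out
  -- a nonzero vector of `C`
  obtain ⟨e1, he1, he1'⟩ : ∃ e1 ∈ C, e1 ≠ 0 := by
    have : Finite C := Nat.finite_of_card_ne_zero (by rw [hC]; exact hp.ne_zero)
    have : Nontrivial C := Finite.one_lt_card_iff_nontrivial.mp (by rw [hC]; exact hp.one_lt)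
    obtain ⟨x, hx⟩ := exists_ne (0 : C)
    exact ⟨x, x.2, fun h ↦ hx (Subtype.ext h)⟩
  -- a vector outside `C`
  obtain ⟨e2, he2⟩ : ∃ e2 : V, e2 ∉ C := by
    by_contra hcon
    push Not at hcon
    have h1 : Nat.card C = Nat.card V := Nat.card_congr (Equiv.subtypeUnivEquiv hcon)
    rw [hC, hV] at h1
    have h2 := hp.one_lt
    nlinarith
  have hdec : ∀ w : V, w ∉ C → ∀ v : V, ∃ x y : ZMod p, v = x • e1 + y • w :=
    fun w hw v ↦ coc_span hV he1 he1' hw v
  have hCspan : ∀ v ∈ C, ∃ x : ZMod p, v = x • e1 := by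
    intro v hv
    obtain ⟨x, y, rfl⟩ := hdec e2 he2 v
    have hy : y = 0 := by
      by_contra hy
      apply he2
      have h1 : y • e2 ∈ C := by
        have := C.sub_mem hv (C.smul_mem x he1)
        simpa using this
      have := C.smul_mem y⁻¹ h1
      rwa [smul_smul, inv_mul_cancel₀ hy, one_smul] at this
    exact ⟨x, by rw [hy, zero_smul, add_zero]⟩
  -- the cocycle
  have hb : ∀ σ : G, ∃ x : ZMod p, σ • e2 - χ σ • e2 = x • e1 :=
    fun σ ↦ hCspan _ (hquot σ e2)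
  choose b hb using hb
  have key : ∀ σ : G, σ • e2 = χ σ • e2 + b σ • e1 := fun σ ↦ by rw [← hb σ]; abel
  have hindep : ∀ {x y : ZMod p}, x • e1 + y • e2 = 0 → x = 0 ∧ y = 0 :=
    fun h ↦ coc_indep he1 he1' he2 h
  have hboth : ∀ σ τ : G, χ (σ * τ) = χ σ * χ τ ∧ b (σ * τ) = χ τ * b σ + b τ := by
    intro σ τ
    have h1 : (σ * τ) • e2 = χ (σ * τ) • e2 + b (σ * τ) • e1 := key _
    have h2 : (σ * τ) • e2 = (χ τ * χ σ) • e2 + (χ τ * b σ + b τ) • e1 := by
      rw [mul_smul, key τ, smul_add, smul_comm σ (χ τ) e2, smul_comm σ (b τ) e1,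
        hfix σ e1 he1, key σ, smul_add, smul_smul, smul_smul, add_smul]
      abel
    have h4 : χ (σ * τ) • e2 + b (σ * τ) • e1
        - ((χ τ * χ σ) • e2 + (χ τ * b σ + b τ) • e1) = 0 := sub_eq_zero.mpr (h1.symm.trans h2)
    have h3 : (b (σ * τ) - (χ τ * b σ + b τ)) • e1 + (χ (σ * τ) - χ τ * χ σ) • e2 = 0 := by
      rw [sub_smul, sub_smul, ← h4]
      abel
    obtain ⟨hx, hy⟩ := hindep h3
    exact ⟨by rw [sub_eq_zero.mp hy, mul_comm], sub_eq_zero.mp hx⟩
  have hker : ∀ σ : G, (∀ v : V, σ • v = v) ↔ (χ σ = 1 ∧ b σ = 0) := by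
    intro σ
    constructor
    · intro h
      have h1 := key σ
      rw [h e2] at h1
      have h3 : b σ • e1 + (χ σ - 1) • e2 = 0 := by
        have e : b σ • e1 + (χ σ - 1) • e2 = (χ σ • e2 + b σ • e1) - e2 := by
          rw [sub_smul, one_smul]
          abel
        rw [e, ← h1, sub_self]
      obtain ⟨hx, hy⟩ := hindep h3
      exact ⟨sub_eq_zero.mp hy, hx⟩
    · rintro ⟨hχ, hb0⟩ v
      obtain ⟨x, y, rfl⟩ := hdec e2 he2 v
      rw [smul_add, smul_comm σ x e1, smul_comm σ y e2, hfix σ e1 he1, key σ, hχ, hb0,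
        one_smul, zero_smul, add_zero]
  refine ⟨b, fun σ τ ↦ (hboth σ τ).1, fun σ τ ↦ (hboth σ τ).2, hker, ?_⟩
  intro hvan
  have hχ1 : χ 1 = 1 := ((hker 1).mp (fun v ↦ one_smul G v)).1
  have hχne : ∀ σ : G, χ σ ≠ 0 := by
    intro σ h0
    have h1 := (hboth σ σ⁻¹).1
    rw [mul_inv_cancel, hχ1, h0, zero_mul] at h1
    exact one_ne_zero h1
  -- an eigenvector outside `C`
  obtain ⟨w, hw, hwσ⟩ : ∃ w : V, w ∉ C ∧ ∀ σ : G, σ • w = χ σ • w := by
    by_cases hall : ∀ σ : G, χ σ = 1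
    · exact ⟨e2, he2, fun σ ↦ by rw [key σ, hvan σ (hall σ), zero_smul, add_zero]⟩
    · push Not at hall
      obtain ⟨σ0, hσ0⟩ := hall
      have hσ0' : χ σ0 - 1 ≠ 0 := sub_ne_zero.mpr hσ0
      have hrel : ∀ σ : G, b σ * (χ σ0 - 1) = b σ0 * (χ σ - 1) := by
        intro σ
        set κ : G := (σ * σ0) * (σ0 * σ)⁻¹ with hκ
        have hκmul : κ * (σ0 * σ) = σ * σ0 := by rw [hκ, inv_mul_cancel_right]
        have hχκ : χ κ = 1 := by
          have h1 := (hboth κ (σ0 * σ)).1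
          rw [hκmul, (hboth σ σ0).1, (hboth σ0 σ).1] at h1
          have hne : χ σ0 * χ σ ≠ 0 := mul_ne_zero (hχne σ0) (hχne σ)
          have h2 : χ κ * (χ σ0 * χ σ) = 1 * (χ σ0 * χ σ) := by rw [← h1, one_mul, mul_comm]
          exact mul_right_cancel₀ hne h2
        have hbκ : b κ = 0 := hvan κ hχκ
        have e1' := (hboth κ (σ0 * σ)).2
        rw [hκmul, hbκ, mul_zero, zero_add, (hboth σ σ0).2, (hboth σ0 σ).2] at e1'
        linear_combination e1'
      set c : ZMod p := b σ0 * (χ σ0 - 1)⁻¹ with hc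
      have hbc : ∀ σ : G, b σ = c * (χ σ - 1) := by
        intro σ
        rw [hc, mul_right_comm, ← hrel σ, mul_assoc, mul_inv_cancel₀ hσ0', mul_one]
      refine ⟨e2 + c • e1, fun hmem ↦ he2 ?_, fun σ ↦ ?_⟩
      · have := C.sub_mem hmem (C.smul_mem c he1)
        simpa using this
      · rw [smul_add, smul_comm σ c e1, hfix σ e1 he1, key σ, hbc σ, smul_add, smul_smul]
        have e : c * (χ σ - 1) = χ σ * c - c := by ring
        rw [e, sub_smul]
        abel
  refine ⟨Submodule.span (ZMod p) {w}, ?_, ?_⟩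
  · intro σ x hx
    obtain ⟨t, rfl⟩ := Submodule.mem_span_singleton.mp hx
    rw [smul_comm σ t w, hwσ σ]
    exact Submodule.smul_mem _ _ (Submodule.smul_mem _ _ (Submodule.mem_span_singleton_self w))
  · rw [isCompl_iff]
    constructor
    · rw [Submodule.disjoint_def]
      intro x hxC hxC'
      obtain ⟨t, rfl⟩ := Submodule.mem_span_singleton.mp hxC'
      by_contra hne
      have ht : t ≠ 0 := fun h ↦ hne (by rw [h, zero_smul])
      apply hw
      have := C.smul_mem t⁻¹ hxC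
      rwa [smul_smul, inv_mul_cancel₀ ht, one_smul] at this
    · rw [codisjoint_iff, eq_top_iff]
      intro v _
      obtain ⟨x, y, rfl⟩ := hdec w hw v
      exact Submodule.add_mem_sup (C.smul_mem x he1)
        (Submodule.smul_mem _ y (Submodule.mem_span_singleton_self w))

end Abstract

variable {p : ℕ} [Fact p.Prime] {V : Type} [AddCommGroup V] [Module (ZMod p) V]
  [DistribMulAction GQ V] [SMulCommClass GQ (ZMod p) V] {C : Submodule (ZMod p) V}

/-- The mod `p` cyclotomic exponent is multiplicative on any admissible extension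
(a consequence of `cyclo_quot` alone). -/
theorem cycloExp_mul_of_admissible (hadm : IsAdmissibleExtension p V C) (σ τ : GQ) :
    (cycloExp p (σ * τ) : ZMod p) = (cycloExp p σ : ZMod p) * (cycloExp p τ : ZMod p) := by
  obtain ⟨b, h0, -⟩ := exists_cocycle_abstract C (fun σ : GQ ↦ (cycloExp p σ : ZMod p))
    hadm.fixed_sub hadm.cyclo_quot hadm.card_sub hadm.card_total
  exact h0 σ τ

/-- **RED-B.** The cocycle `b` of an admissible extension. -/
theorem exists_cocycle (hadm : IsAdmissibleExtension p V C) :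
    ∃ b : GQ → ZMod p,
      (∀ σ τ : GQ, b (σ * τ) = (cycloExp p τ : ZMod p) * b σ + b τ) ∧
      (∀ σ : GQ, (∀ v : V, σ • v = v) ↔ ((cycloExp p σ : ZMod p) = 1 ∧ b σ = 0)) ∧
      ((∀ σ : GQ, (cycloExp p σ : ZMod p) = 1 → b σ = 0) → SplitsGlobally C) := by
  obtain ⟨b, -, h1, h2, h3⟩ := exists_cocycle_abstract C (fun σ : GQ ↦ (cycloExp p σ : ZMod p))
    hadm.fixed_sub hadm.cyclo_quot hadm.card_sub hadm.card_total
  exact ⟨b, h1, h2, fun h ↦ h3 h⟩

end Fermat.Agent.CFT.Red
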