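import Mathlib
import Fermat.Statements.S14
import Fermat.Agent.Lib.InertiaLift
import Fermat.Agent.Lib.Frob.Bridge

/-!
# RED-C: the fixed field of an open normal subgroup of `G_ℚ`

For an open normal subgroup `N` of `GQ = Gal(ℚ̄/ℚ)`, the fixed field `ℚ̄^N` is finite Galois over
`ℚ`, the restriction `GQ → Gal(ℚ̄^N/ℚ)` is surjective and its kernel is `N`.
-/

set_option autoImplicit false

open NumberField ExtCitation

namespace Fermat.Agent.CFT.Red

local notation "Qb" => AlgebraicClosure ℚ
local notation "GQ" => (AlgebraicClosure ℚ ≃ₐ[ℚ] AlgebraicClosure ℚ)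

attribute [local instance] Fermat.Agent.Lib.FrobeniusExists.isAlgClosure_rat
  Fermat.Agent.Lib.FrobeniusExists.isGalois_rat

/-- The fixing subgroup of the fixed field of an open subgroup is the subgroup itself. -/
theorem fixingSubgroup_fixedField_of_isOpen (N : Subgroup GQ) (hN : IsOpen (N : Set GQ)) :
    (IntermediateField.fixedField N).fixingSubgroup = N :=
  InfiniteGalois.fixingSubgroup_fixedField ⟨N, N.isClosed_of_isOpen hN⟩

theorem fixedField_finiteDimensional (N : Subgroup GQ) [N.Normal] (hN : IsOpen (N : Set GQ)) :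
    FiniteDimensional ℚ (IntermediateField.fixedField N) :=
  (InfiniteGalois.isOpen_iff_finite (IntermediateField.fixedField N)).mp (by
    rw [fixingSubgroup_fixedField_of_isOpen N hN]
    exact hN)

theorem fixedField_isGalois (N : Subgroup GQ) [N.Normal] (hN : IsOpen (N : Set GQ)) :
    IsGalois ℚ (IntermediateField.fixedField N) :=
  (InfiniteGalois.normal_iff_isGalois (IntermediateField.fixedField N)).mp (by
    rw [fixingSubgroup_fixedField_of_isOpen N hN]
    infer_instance)

theorem restrictNormalHom_fixedField_eq_one_iff (N : Subgroup GQ) [N.Normal]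
    (hN : IsOpen (N : Set GQ)) [Normal ℚ (IntermediateField.fixedField N)] (σ : GQ) :
    AlgEquiv.restrictNormalHom (IntermediateField.fixedField N) σ = 1 ↔ σ ∈ N := by
  have hfix : σ ∈ N ↔ ∀ x ∈ IntermediateField.fixedField N, σ x = x := by
    rw [← IntermediateField.mem_fixingSubgroup_iff, fixingSubgroup_fixedField_of_isOpen N hN]
  rw [hfix]
  constructor
  · intro h x hx
    have h1 := AlgEquiv.restrictNormal_commutes σ (IntermediateField.fixedField N) ⟨x, hx⟩
    have h2 : AlgEquiv.restrictNormal σ (IntermediateField.fixedField N) ⟨x, hx⟩ = ⟨x, hx⟩ := by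
      have := DFunLike.congr_fun h (⟨x, hx⟩ : IntermediateField.fixedField N)
      exact this
    rw [h2] at h1
    exact h1.symm
  · intro h
    ext ⟨x, hx⟩
    have h1 := AlgEquiv.restrictNormal_commutes σ (IntermediateField.fixedField N) ⟨x, hx⟩
    have h2 : (AlgEquiv.restrictNormalHom (IntermediateField.fixedField N) σ) ⟨x, hx⟩ =
        AlgEquiv.restrictNormal σ (IntermediateField.fixedField N) ⟨x, hx⟩ := rfl
    rw [h2, AlgEquiv.one_apply]
    exact h1.trans (h x hx)

set_option linter.unusedVariables false in
theorem restrictNormalHom_fixedField_surjective (N : Subgroup GQ) [N.Normal]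
    (hN : IsOpen (N : Set GQ)) [Normal ℚ (IntermediateField.fixedField N)] :
    Function.Surjective
      (AlgEquiv.restrictNormalHom (F := ℚ) (K₁ := Qb) (IntermediateField.fixedField N)) :=
  AlgEquiv.restrictNormalHom_surjective Qb

end Fermat.Agent.CFT.Red
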